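import Fermat.Agent.Extra.S38AvoidSupply
import Fermat.Agent.MLT.Odd.SupplyAssembly
import Fermat.Agent.MLT.Odd.Producer
import Fermat.Agent.MLT.Odd.PatchMinimal

/-!
# Ihara avoidance in every case at `p`

Without a residual system prime to `T` the product of the `(t_q² - (q + 1)²)²` kills every level,
against the component of the special fibre unramified at all of `T`.
-/

set_option autoImplicit false
set_option linter.style.haveILetI false
set_option synthInstance.maxHeartbeats 400000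
set_option maxHeartbeats 1600000

noncomputable section

namespace FermatLib.MLT.Odd

open IsLocalRing

variable {O : Type} [CommRing O] [IsDomain O] [IsDiscreteValuationRing O]
  [IsAdicComplete (maximalIdeal O) O] [Finite (ResidueField O)] [CharZero O]
  {p : ℕ} [Fact p.Prime] {ρbar : ResidualGaloisRep (ResidueField O)}

/-- The levels, with their kill relation when no system prime to `T` exists. -/
theorem exists_oddLevels_noT (hp2 : p ≠ 2) (hpO : (p : O) ∈ maximalIdeal O)
    (hζ : ∃ ζ : O, ζ ^ p = 1 ∧ ζ ≠ 1) (hres : OddResidual p ρbar) (S : OddPrimes p ρbar)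
    (tp : S.TamePairs) (hseed : HasSeed S) (hF : S.F = ∅) (hmin : ¬ HasCharacterWithoutT S) :
    ∃ (d : OddVariant → ℕ) (ζ : ℕ → O) (avoid : Finset ℕ),
      (∀ q ∈ S.T, ζ q ^ p = 1 ∧ ζ q ≠ 1) ∧ 0 < d .std ∧
      ∃ L₀ : OddLevel S ∅ 0 1 d tp ζ,
        ∀ (n : ℕ) {r : ℕ} (qv : Fin r → ℕ), IsTWFamily S n qv → (∀ i, qv i ∉ avoid) →
          ∃ L : OddLevel S (Finset.univ.image qv) r (p ^ (n + 1)) d tp ζ,
            Nonempty (OddLevelHom L L₀) ∧ ∀ v : L.M .std,
              (∏ q : S.T, (L.ρ.trace (tp.atT q).frob ^ 2 - (((q : ℕ) : L.R) + 1) ^ 2) ^ 2) • v = 0 := by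
  obtain ⟨P⟩ := nonempty_supplyParams hp2 hpO hζ hres hseed tp
  obtain ⟨K₀⟩ := nonempty_levelPack hp2 hpO hres (SupplyLevel.zero P)
  haveI := K₀.nonempty_std hp2 hpO
  let x' := basePoints K₀ (m := 0) Fin.elim0 fun i => i.elim0
  haveI : Nonempty (K₀.Idx (K₀.std.κ ⊕ Fin 0)) :=
    (inferInstance : Nonempty K₀.std.κ).map LevelPack.Idx.std
  obtain ⟨ρ₀⟩ := nonempty_levelRep hp2 hres.absIrred (K₀.fam x')
  refine ⟨P.ranks, P.ζ, P.avoid, P.ζ_spec, rank_std_pos hp2 hpO P,
    (K₀.data x' hp2 hpO hres).toLevel ρ₀, fun n r qv hqv havoid => ?_⟩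
  obtain ⟨C, -⟩ := exists_supplyLevel hres P hqv havoid
  obtain ⟨K⟩ := nonempty_levelPack hp2 hpO hres C
  let x := K.fam (K₀.fam x')
  let DL := K.data (K₀.fam x') hp2 hpO hres
  obtain ⟨ρ⟩ := nonempty_levelRep hp2 hres.absIrred x
  refine ⟨DL.toLevel ρ, ⟨(K.dataHom x' K₀ hp2 hpO hres).toLevelHom ρ ρ₀⟩, fun v => ?_⟩
  refine (DL.mods .std).action_smul_eq_zero (fun j => ?_) v
  obtain ⟨q, hq⟩ := supply_trace_sq_noT Galois.padicAttachment
    (fun {_} _ {_} hg lam _ S O' _ _ _ _ _ _ hlamO' chig hchig iota hlamS hMS =>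
      Fermat.Agent.S35.result hg lam S O' hlamO' chig hchig iota hlamS hMS)
    hp2 hpO hres hF hmin K.std j
  show levelEval x _
    (∏ q : S.T, (ρ.ρ.trace (tp.atT q).frob ^ 2 - (((q : ℕ) : LevelRing x) + 1) ^ 2) ^ 2) = 0
  rw [map_prod]
  refine Finset.prod_eq_zero (Finset.mem_univ q) ?_
  have key : levelEval x ((DL.mods .std).sys j)
      ((levelTrace x (tp.atT q).frob ^ 2 - (((q : ℕ) : LevelRing x) + 1) ^ 2) ^ 2) = 0 := by
    rw [map_pow, map_sub, map_pow, map_pow, map_add, map_natCast, map_one, levelEval_levelTrace]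
    exact (congrArg (· ^ 2) (sub_eq_zero.mpr hq)).trans (zero_pow two_ne_zero)
  rw [← ρ.trace_eq] at key
  exact key

/-- **Ihara avoidance in every case at `p`.** With `F` empty, a seed gives a residual system of a
level prime to `T`. -/
theorem exists_character_without_T (hp2 : p ≠ 2) (hpO : (p : O) ∈ maximalIdeal O)
    (hζ : ∃ z : O, z ^ p = 1 ∧ z ≠ 1) (hres : OddResidual p ρbar) (S : OddPrimes p ρbar)
    (hF : S.F = ∅) (hseed : HasSeed S) : HasCharacterWithoutT S := by
  classical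
  by_contra hmin
  let tp : S.TamePairs := fun q => (exists_tamePair (Fact.out : p.Prime)
    (S.prime_of_mem q.1 (by
      have := q.2
      simp only [Finset.mem_union] at this ⊢
      tauto))
    (S.ne_p q.1 (by
      have := q.2
      simp only [Finset.mem_union] at this ⊢
      tauto))).some
  obtain ⟨r, g, hcount, hgen⟩ := exists_twPrimes_generators hp2 hpO hres S tp
  obtain ⟨d, ζ, avoid, hζT, hd, L₀, hlev⟩ :=
    exists_oddLevels_noT hp2 hpO hζ hres S tp hseed hF hmin
  choose qv hqv hqa hg using fun n => hgen n avoid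
  choose L hhom hkill using fun n => hlev n (qv n) (hqv n) (hqa n)
  let F : OddFamily L₀ r g :=
    { qv := qv
      level := L
      hom := fun n => (hhom n).some
      gen := fun n => hg n (L n).R (L n).residue_surjective (L n).ρ (L n).lift (L n).isLiftOf
        (L n).generated }
  obtain ⟨P⟩ := nonempty_oddPatch hpO F
  obtain ⟨n, v, hv⟩ := P.exists_prod_smul_ne_zero hp2 hpO hres hd hcount hζT
  exact hv (hkill n v)

end FermatLib.MLT.Odd

end
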