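import Fermat.Agent.MLT.Odd.SupplyModules
import Fermat.Agent.MLT.Odd.SupplyZeroMain
import Fermat.Agent.Galois.AttachmentProved
import Fermat.Agent.S35

/-!
# Without a residual system prime to `T` every system is special at a prime of `T`

The descent of `SupplyZeroMain` for any case at `p`: when the case is not flat, `p` stays in the
level throughout.
-/

set_option autoImplicit false
set_option linter.style.haveILetI false
set_option linter.unusedSectionVars false

noncomputable section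

open CongruenceSubgroup MvPolynomial
open IsLocalRing

namespace FermatLib.MLT.Odd

local notation "Γℚ" => (AlgebraicClosure ℚ ≃ₐ[ℚ] AlgebraicClosure ℚ)
local notation "Qbar" => AlgebraicClosure ℚ

section defs

variable {k : Type} [Field k] {p : ℕ} {ρbar : ResidualGaloisRep k}

/-- The part of the level at `p`. -/
def OddPrimes.pFactor (S : OddPrimes p ρbar) : ℕ := if S.pCase = PCase.flat then 1 else p

/-- A residual system of a squarefree level without the primes of `T` and `F`; `p` may divide the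
level unless the case is flat. -/
def HasCharacterWithoutT (S : OddPrimes p ρbar) : Prop :=
  ∃ (N : ℕ) (_ : NeZero N), Squarefree N ∧
    (∀ q : ℕ, q.Prime → q ∣ N → q ∈ S.Smin ∨ (q = p ∧ S.pCase ≠ PCase.flat)) ∧
    ∃ θ : CuspForm.heckeAlgebra N 2 (insert p (S.all : Set ℕ)) →+* k, HasResidualTraces p ρbar θ

end defs

variable {O : Type} [CommRing O] [IsDomain O] [IsDiscreteValuationRing O]
  [IsAdicComplete (maximalIdeal O) O] [Finite (ResidueField O)] [CharZero O] {p : ℕ}
  [Fact p.Prime] {ρbar : ResidualGaloisRep (ResidueField O)} {S : OddPrimes p ρbar}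
  {tp : S.TamePairs} {P : SupplyParams S tp} {Q : Finset ℕ} {r e : ℕ}

theorem OddPrimes.pFactor_dvd (S : OddPrimes p ρbar) : S.pFactor ∣ p := by
  unfold OddPrimes.pFactor
  split_ifs
  exacts [one_dvd _, dvd_rfl]

theorem OddPrimes.pFactor_ne_zero (S : OddPrimes p ρbar) : S.pFactor ≠ 0 := fun h =>
  (Fact.out : p.Prime).ne_zero (Nat.eq_zero_of_zero_dvd (h ▸ S.pFactor_dvd))

section Systems

open SupplyLevel

variable {C : SupplyLevel P Q r e}

set_option maxHeartbeats 1000000 in
/-- The base level without the primes of `T` carries no eigenclass when there is no minimal seed. -/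
theorem not_qvEigen_noT (hp2 : p ≠ 2) (hpO : (p : O) ∈ maximalIdeal O)
    (hres : OddResidual p ρbar) (hmin : ¬ HasCharacterWithoutT S)
    {K : Type} [Field K] [IsAlgClosed K] [Algebra (DiamondRing O C.Δ) K] (lam : Nat.Primes → K)
    (hS : ∀ P' ∈ bettiResidualSubmonoid S.supplyPrimes (gammaHTheta O (C.theta .std) C.Δ),
      eval lam (MvPolynomial.map (algebraMap (DiamondRing O C.Δ) K) P') ≠ 0)
    (heig : QvEigen (C.omega (K := K)) S.supplyPrimes lam ((∏ q ∈ S.Smin, q) * S.pFactor * ∏ i, C.qv i)) :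
    False := by
  classical
  have hp : p.Prime := Fact.out
  haveI : NeZero (p ^ e) := ⟨pow_ne_zero _ hp.ne_zero⟩
  haveI := diamond_isLocalRing O C.Δ hpO (isPGroup_twGroup r)
  let Pr := S.supplyPrimes
  let θA := gammaHTheta O (C.theta .std) C.Δ
  obtain ⟨h, x, hx, hxeig⟩ := heig
  set N := (∏ q ∈ S.Smin, q) * S.pFactor with hN
  have hNmem : ∀ q : ℕ, q.Prime → q ∣ N → q ∈ S.Smin ∨ (q = p ∧ S.pCase ≠ PCase.flat) :=
    fun q hq hd => by
      rcases hq.dvd_mul.1 hd with hd | hd
      · obtain ⟨q', hq', hd'⟩ := (Prime.dvd_finsetProd_iff hq.prime _).1 hd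
        exact Or.inl (by rwa [(Nat.prime_dvd_prime_iff_eq hq (S.prime_of_mem q'
          (Finset.mem_union_left _ (Finset.mem_union_left _ hq')))).1 hd'])
      · unfold OddPrimes.pFactor at hd
        split_ifs at hd with h
        · exact absurd hd hq.not_dvd_one
        · exact Or.inr ⟨(Nat.prime_dvd_prime_iff_eq hq hp).1 hd, h⟩
  haveI : NeZero N := ⟨mul_ne_zero (Finset.prod_ne_zero_iff.2 fun q hq =>
    (S.prime_of_mem q (Finset.mem_union_left _ (Finset.mem_union_left _ hq))).ne_zero)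
    S.pFactor_ne_zero⟩
  haveI : NeZero (N * ∏ i, C.qv i) := ⟨mul_ne_zero (NeZero.ne N)
    (Finset.prod_ne_zero_iff.2 fun i _ => (C.prime i).ne_zero)⟩
  have hNlev : ∀ q : ℕ, q.Prime → q ∣ N → q ∣ p * S.level := fun q hq hd => by
    rcases hNmem q hq hd with h | ⟨h, -⟩
    · exact (dvd_level_of_mem_all (Finset.mem_union_left _ (Finset.mem_union_left _ h))).mul_left p
    · exact (dvd_of_eq h).trans (dvd_mul_right _ _)
  have hlev : ∀ l : ℕ, l.Prime → l ∣ p * S.level → l ∈ insert p (S.all : Set ℕ) := fun l hl hd => by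
    rcases hl.dvd_mul.1 hd with hd | hd
    · exact Set.mem_insert_iff.mpr (Or.inl ((Nat.prime_dvd_prime_iff_eq hl hp).1 hd))
    · unfold OddPrimes.level at hd
      rcases hl.dvd_mul.1 hd with hd | hd
      · obtain ⟨l', hl', hd'⟩ := (Prime.dvd_finsetProd_iff hl.prime _).1 hd
        exact Set.mem_insert_of_mem _
          ((Nat.prime_dvd_prime_iff_eq hl (S.prime_of_mem l' hl')).1 hd' ▸ hl')
      · split_ifs at hd
        · exact absurd hd hl.not_dvd_one
        · exact Set.mem_insert_iff.mpr (Or.inl ((Nat.prime_dvd_prime_iff_eq hl hp).1 hd))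
  obtain ⟨x', hx', hxeig'⟩ : ∃ x' : BettiMod (N * ∏ i, C.qv i) (bettiBaseChar K (charDiamond O
      ((1 : (ZMod N)ˣ →* Oˣ).comp (ZMod.unitsMap (dvd_mul_right N (∏ i, C.qv i))))
      (MonoidHom.pi fun i => (C.f i).comp (ZMod.unitsMap (h i)) :
        (ZMod (N * ∏ i, C.qv i))ˣ →* C.Δ))) K, x' ≠ 0 ∧
      ∀ l : Nat.Primes, l ∈ Pr → (X l : BettiHeckeAlg K) • x' = lam l • x' := by
    rw [C.qvChar_omega h
      (χ := (1 : (ZMod N)ˣ →* Oˣ).comp (ZMod.unitsMap (dvd_mul_right N (∏ i, C.qv i)))) rfl]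
    exact ⟨x, hx, hxeig⟩
  have hnt : Nontrivial (BettiResLoc (charDiamond O
      ((1 : (ZMod N)ˣ →* Oˣ).comp (ZMod.unitsMap (dvd_mul_right N (∏ i, C.qv i))))
      (MonoidHom.pi fun i => (C.f i).comp (ZMod.unitsMap (h i)) :
        (ZMod (N * ∏ i, C.qv i))ˣ →* C.Δ)) Pr θA) :=
    nontrivial_bettiResLoc_of_eigen
      (bettiRightExact_residual _ (charDiamond_neg_one O _ _ rfl
          (map_neg_one_of_odd (hp.odd_of_ne_two hp2).pow _)) _
        (ellipticHarmless_diamond O Pr _ (C.ellipticHarmless_any hp2 hpO _))) hx' lam hxeig' hS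
  haveI := C.nontrivial_base_of_module hp2 hpO hNlev (dvd_mul_right N _) h hnt
  haveI : NeZero (N * (p * S.level)) :=
    ⟨mul_ne_zero (NeZero.ne N) (mul_ne_zero hp.ne_zero (NeZero.ne _))⟩
  obtain ⟨l₀, hl₀, hlT, hlN, -, hl1, A', hA', σ, hσ, hne⟩ :=
    HeckeRep.exists_frobenius_trace_ne hres.absIrred hp hres.det N (p * S.level).primeFactors
  have hl₀g : ¬ l₀ ∣ p * S.level := fun hd => hlT
    (Nat.mem_primeFactors.2 ⟨hl₀, hd, mul_ne_zero hp.ne_zero (NeZero.ne _)⟩)
  obtain ⟨θ', hθ'⟩ := exists_residual_point_of_nontrivial (O := O) (Pr := Pr)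
    (θ := P.baseTheta .std) (N := N) (E := insert p (S.all : Set ℕ))
    (fun l _ hlE => Or.inl fun hd => hlE (hlev l l.2 hd))
    (fun q hq hd => hlev q hq (hNlev q hq hd))
    ⟨l₀, hl₀⟩ (Or.inl hl₀g) hl1 (by
      rw [baseTheta_X_of_not_dvd P .std (l := ⟨l₀, hl₀⟩) hl₀g,
        P.θX_good ⟨l₀, hl₀⟩ hl₀g A' hA' σ hσ]
      exact hne)
  refine hmin ⟨N, inferInstance, ?_, hNmem, θ', ?_⟩
  · refine (Nat.squarefree_mul ?_).mpr ⟨Finset.squarefree_prod_of_pairwise_isCoprime
      (fun q hq q' hq' hne' => Nat.coprime_iff_isRelPrime.mp ((Nat.coprime_primes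
        (S.prime_of_mem q (Finset.mem_union_left _ (Finset.mem_union_left _ hq)))
        (S.prime_of_mem q' (Finset.mem_union_left _ (Finset.mem_union_left _ hq')))).mpr hne'))
      (fun q hq => (S.prime_of_mem q (Finset.mem_union_left _
        (Finset.mem_union_left _ hq))).squarefree), hp.squarefree.squarefree_of_dvd S.pFactor_dvd⟩
    exact (Nat.Coprime.prod_left fun q hq => (Nat.coprime_primes (S.prime_of_mem q
      (Finset.mem_union_left _ (Finset.mem_union_left _ hq))) hp).mpr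
      (S.ne_p q (Finset.mem_union_left _ (Finset.mem_union_left _ hq)))).coprime_dvd_right
      S.pFactor_dvd
  intro l hl hlN' hlE _ A'' hA'' τ hτ
  have hg : ¬ l ∣ p * S.level := fun hd => hlE (hlev l hl hd)
  rw [hθ' l hl hlN' hlE, baseTheta_X_of_not_dvd P .std (l := ⟨l, hl⟩) hg,
    P.θX_good ⟨l, hl⟩ hg A'' hA'' τ hτ]

/-- The exit of the descent at `a`: the system is special at `a`. -/
theorem trace_sq_of_exit_noT (hattach : Galois.PadicAttachment)
    (h35 : NewformFrobeniusAtBadPrime) (hp2 : p ≠ 2) (hres : OddResidual p ρbar)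
    (Y : SupplySystems C .std) (j : Y.κ) {K : Type} [Field K] [IsAlgClosed K] [CharZero K]
    [Algebra (DiamondRing O C.Δ) K] (jK : (Y.y j).O' →+* K) (hjK : Function.Injective jK)
    (lam : Nat.Primes → K) (hgood : GoodValues C (Y.ev j) jK lam) {a : ℕ} (hap : a.Prime)
    (haT : a ∈ S.T) (haall : a ∈ S.all) {L : ℕ} [NeZero L]
    (hsq : ∀ i, ¬ C.qv i ^ 2 ∣ L) (haL : ¬ a ∣ L)
    (hLadvd : L * a ∣ C.level .std) (hdvd : ∀ i, C.qv i ∣ L)
    (x : BettiMod (L * ((⟨a, hap⟩ : Nat.Primes) : ℕ))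
      (qvChar (C.omega (K := K)) (L * ((⟨a, hap⟩ : Nat.Primes) : ℕ))
        fun i => (hdvd i).mul_right _) K)
    (u : Nat.Primes → K) (hx : x ≠ 0) (hxeig : ∀ l, (X l : BettiHeckeAlg K) • x = u l • x)
    (hxlam : ∀ l ∈ S.supplyPrimes, u l = lam l)
    (hxq : u ⟨a, hap⟩ ^ 2 =
      (qvChar (C.omega (K := K)) L hdvd (levelUnit (q := (⟨a, hap⟩ : Nat.Primes)) haL) : K)) :
    (Y.y j).r.trace (tp.atT ⟨a, haT⟩).frob ^ 2 = ((a : (Y.y j).O') + 1) ^ 2 := by
  classical
  have hp : p.Prime := Fact.out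
  set k : ℕ := (p ^ (e + 1) - 1) / 2 with hk
  have hω : ∀ i u, C.omega (K := K) i u ^ (2 * k + 1) = 1 := fun i u => by
    obtain ⟨m, hm⟩ := (hp.odd_of_ne_two hp2).pow (n := e + 1)
    rw [show 2 * k + 1 = p ^ (e + 1) by rw [hk, hm]; omega]
    exact C.omega_pow i u
  obtain ⟨N, _, f, ι, hf, haN', ha2, -, hfa, hfval⟩ := exists_eigenform_of_qvChar
    (ω := C.omega (K := K)) (q := ⟨a, hap⟩) haL C.injective C.prime hdvd hsq hω hx u hxeig
    (fun M _ _ => by
      obtain ⟨l, hl, hl1, hne⟩ := goodValues_ne_eisenstein hres Y j jK hjK lam hgood M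
      exact ⟨l, hl1, by rw [hxlam l hl]; exact hne⟩) hxq
  refine trace_sq_of_eigenform hattach h35 (Y.y j).lift.det jK hjK hf ι (C.exc .std)
    (fun l => Y.ev j (C.tElt .std l))
    (fun l hl hlE A' hA' σ hσ => Y.t_spec j l hl hlE A' hA' σ hσ) (fun l hl hlE _ b hb => ?_) hap (S.ne_p a haall)
    haN' ha2 hfa (tp.atT ⟨a, haT⟩).liesOver (tp.atT ⟨a, haT⟩).frob_spec
  have hcop : l.Coprime (C.level .std) := hl.coprime_iff_not_dvd.2 fun hd => hlE
    (Nat.mem_primeFactors.2 ⟨hl, hd.mul_left p, mul_ne_zero hp.ne_zero (NeZero.ne _)⟩)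
  have hcop' : l.Coprime (L * a) := hcop.coprime_dvd_right hLadvd
  have hlPr := supplyPrimes_of_notMem_exc (C := C) hl hlE
  rw [hfval ⟨l, hl⟩ hcop' b hb, hxlam _ hlPr, ← hgood l hl hlE hcop]
  congr 2
  rw [qvChar_apply, qvChar_apply, Units.coe_prod, Units.coe_prod]
  exact Finset.prod_congr rfl fun i _ => congrArg (fun v => (C.omega (K := K) i v : K))
    (Units.ext (by
      simp [ZMod.unitsMap_val, ZMod.cast_natCast ((hdvd i).mul_right a),
        ZMod.cast_natCast (C.qv_dvd_level .std i)]))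

end Systems

/-- **Without a system prime to `T` every system is special at a prime of `T`.** -/
theorem supply_trace_sq_noT (hattach : Galois.PadicAttachment)
    (h35 : NewformFrobeniusAtBadPrime) (hp2 : p ≠ 2) (hpO : (p : O) ∈ maximalIdeal O)
    (hres : OddResidual p ρbar) (hF : S.F = ∅)
    (hmin : ¬ HasCharacterWithoutT S) {C : SupplyLevel P Q r e} (Y : SupplySystems C .std) (j : Y.κ) :
    ∃ q : S.T, (Y.y j).r.trace (tp.atT q).frob ^ 2 = (((q : ℕ) : (Y.y j).O') + 1) ^ 2 := by
  classical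
  have hp : p.Prime := Fact.out
  haveI : NeZero (p ^ e) := ⟨pow_ne_zero _ hp.ne_zero⟩
  let O' := (Y.y j).O'
  let F := FractionRing O'
  let K := AlgebraicClosure F
  haveI : CharZero F := charZero_of_injective_algebraMap (IsFractionRing.injective O' F)
  haveI : CharZero K := charZero_of_injective_algebraMap (algebraMap F K).injective
  let jK : O' →+* K := (algebraMap F K).comp (algebraMap O' F)
  have hjK : Function.Injective jK :=
    (algebraMap F K).injective.comp (IsFractionRing.injective O' F)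
  let A := DiamondRing O C.Δ
  let Pr := S.supplyPrimes
  obtain ⟨ν, hνpolys, hνann⟩ := exists_point_extension hp2 hpO C (Y.ev j) jK
  letI algK : Algebra A K := (ν.comp (algebraMap A ↥(supported A Pr))).toAlgebra
  let lam : Nat.Primes → K := fun l =>
    if hl : l ∈ Pr then ν ⟨X l, X_mem_supported_set hl⟩ else 0
  have hlam : ∀ (l : Nat.Primes) (hl : l ∈ Pr), ν ⟨X l, X_mem_supported_set hl⟩ = lam l :=
    fun l hl => (show lam l = _ from dif_pos hl).symm
  have hgood : GoodValues C (Y.ev j) jK lam :=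
    goodValues_of_point (Y.ev j) jK ν (fun a => rfl) hνpolys lam hlam
  have hlevel : S.level = (∏ q ∈ S.Smin ∪ S.T, q) * S.pFactor := by
    rw [OddPrimes.level, OddPrimes.all, hF, Finset.union_empty, OddPrimes.pFactor]
  have hPr : ∀ l : Nat.Primes, (l : ℕ) ∣ p * S.level → (l : ℕ) ≠ p → l ∉ Pr := fun l hd hlp h => by
    rcases h with h | h
    · exact h hd
    · rw [OddPrimes.locPrimes, hF, Finset.filter_empty, Finset.empty_union] at h
      split_ifs at h
      · exact hlp (Finset.mem_singleton.1 h)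
      · exact absurd h (Finset.notMem_empty _)
  have hdvdstd : ∀ i, C.qv i ∣ C.level .std := C.qv_dvd_level .std
  -- the eigenclass
  let θA := gammaHTheta O (C.theta .std) C.Δ
  have hχA : ∀ {L : ℕ} (χ : (ZMod L)ˣ →* Oˣ) (δ : (ZMod L)ˣ →* C.Δ), χ = 1 →
      charDiamond O χ δ (-1) = 1 := fun χ δ hχ => charDiamond_neg_one O χ δ (by rw [hχ]; rfl)
        (map_neg_one_of_odd (hp.odd_of_ne_two hp2).pow _)
  haveI := diamond_isLocalRing O C.Δ hpO (isPGroup_twGroup r)
  have hR : ∀ (L : ℕ) [NeZero L] (χ : (ZMod L)ˣ →* Oˣ) (δ : (ZMod L)ˣ →* C.Δ), χ = 1 →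
      BettiRightExact L (charDiamond O χ δ) (bettiResidualSubmonoid Pr θA) := fun L _ χ δ hχ =>
    bettiRightExact_residual _ (hχA χ δ hχ) _
      (ellipticHarmless_diamond O Pr _ (C.ellipticHarmless_any hp2 hpO L))
  have hlnestd : ¬ (P.lne : ℕ) ∣ C.level .std :=
    C.lne_not_dvd (N := S.level) fun q _ h => h.mul_left p
  have hE : BettiNonEisenstein (C.level .std) (charDiamond O (C.char .std) (C.delta .std))
      (bettiResidualSubmonoid Pr θA) :=
    bettiNonEisenstein_residual _ _ P.lne (Or.inl P.lne_good) (by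
      rw [gammaHTheta_X, gammaHTheta_C, show diamondAug O C.Δ
          (heckeDegree (charDiamond O (C.char .std) (C.delta .std)) P.lne) =
            heckeDegree (C.char .std) P.lne by
        show algebraMap (DiamondRing O C.Δ) O _ = _
        rw [← heckeDegree_baseChar, bettiBaseChar_charDiamond]]
      exact C.residual_degree hpO _ rfl hlnestd)
  haveI : Module.Finite A (BettiResLoc (charDiamond O (C.char .std) (C.delta .std)) Pr θA) :=
    (C.free_mod hp2 hpO .std).2.1
  obtain ⟨⟨y, hy, hyeig⟩, hS⟩ := exists_eigen_of_bettiLoc_point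
    (hχA (C.char .std) (C.delta .std) rfl) (hR _ (C.char .std) (C.delta .std) rfl) hE ν
    (fun a => rfl) hνann lam hlam
  -- descent over `T`
  suffices key : ∀ U : Finset ℕ, U ⊆ S.T →
      QvEigen (C.omega (K := K)) Pr lam ((∏ q ∈ S.Smin ∪ U, q) * S.pFactor * ∏ i, C.qv i) →
      ∃ q : S.T, (Y.y j).r.trace (tp.atT q).frob ^ 2 = (((q : ℕ) : O') + 1) ^ 2 by
    refine key S.T (Finset.Subset.refl _) ?_
    have heig0 : QvEigen (C.omega (K := K)) Pr lam (C.level .std) := by
      refine ⟨hdvdstd, ?_⟩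
      rw [← C.qvChar_omega hdvdstd (χ := C.char .std) rfl]
      exact ⟨y, hy, hyeig⟩
    rw [← hlevel]
    exact heig0
  intro U
  induction U using Finset.induction_on with
  | empty =>
    intro _ heig
    rw [Finset.union_empty] at heig
    exact absurd heig fun h => not_qvEigen_noT hp2 hpO hres hmin lam hS h
  | @insert a U haU ih =>
    intro hsub heig
    have haT : a ∈ S.T := hsub (Finset.mem_insert_self a U)
    have hUT : U ⊆ S.T := fun x hx => hsub (Finset.mem_insert_of_mem hx)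
    have hall : ∀ x ∈ S.Smin ∪ U, x ∈ S.all := fun x hx => by
      rcases Finset.mem_union.1 hx with hx | hx
      · exact Finset.mem_union_left _ (Finset.mem_union_left _ hx)
      · exact Finset.mem_union_left _ (Finset.mem_union_right _ (hUT hx))
    have haall : a ∈ S.all := Finset.mem_union_left _ (Finset.mem_union_right _ haT)
    have haN : a ∉ S.Smin ∪ U := fun h => (Finset.mem_union.1 h).elim
      (fun h => Finset.disjoint_left.1 S.disjoint_min_T h haT) haU
    have hap : a.Prime := S.prime_of_mem a haall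
    set L := (∏ q ∈ S.Smin ∪ U, q) * S.pFactor * ∏ i, C.qv i with hL
    have hLeq : (∏ q ∈ S.Smin ∪ insert a U, q) * S.pFactor * ∏ i, C.qv i = L * a := by
      rw [Finset.union_insert, Finset.prod_insert haN, hL]; ring
    haveI : NeZero L := ⟨mul_ne_zero (mul_ne_zero (Finset.prod_ne_zero_iff.2 fun x hx =>
      (S.prime_of_mem x (hall x hx)).ne_zero) S.pFactor_ne_zero)
      (Finset.prod_ne_zero_iff.2 fun i _ => (C.prime i).ne_zero)⟩
    have hqvall : ∀ i, C.qv i ∉ S.all := fun i h => C.notMem i (Finset.mem_insert_of_mem h)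
    have haL : ¬ a ∣ L := fun hd => by
      rcases hap.dvd_mul.1 hd with hd | hd
      · rcases hap.dvd_mul.1 hd with hd | hd
        swap
        · exact S.ne_p a haall ((Nat.prime_dvd_prime_iff_eq hap hp).1 (hd.trans S.pFactor_dvd))
        obtain ⟨x, hx, hd⟩ := (Prime.dvd_finsetProd_iff hap.prime _).1 hd
        exact haN ((Nat.prime_dvd_prime_iff_eq hap (S.prime_of_mem x (hall x hx))).1 hd ▸ hx)
      · obtain ⟨i, -, hd⟩ := (Prime.dvd_finsetProd_iff hap.prime _).1 hd
        exact hqvall i ((Nat.prime_dvd_prime_iff_eq hap (C.prime i)).1 hd ▸ haall)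
    have hsq : ∀ i, ¬ C.qv i ^ 2 ∣ L := fun i hd => by
      rw [hL] at hd
      have hcop : (C.qv i).Coprime ((∏ q ∈ S.Smin ∪ U, q) * S.pFactor) :=
        Nat.Coprime.mul_right (Nat.Coprime.prod_right fun x hx =>
          (Nat.coprime_primes (C.prime i) (S.prime_of_mem x (hall x hx))).2
            fun h => hqvall i (h ▸ hall x hx))
          (((Nat.coprime_primes (C.prime i) hp).2 fun h => C.notMem i
            (by rw [h]; exact Finset.mem_insert_self _ _)).coprime_dvd_right S.pFactor_dvd)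
      have h' := (hcop.pow_left 2).dvd_of_dvd_mul_left hd
      rw [← Finset.mul_prod_erase _ _ (Finset.mem_univ i), pow_two] at h'
      obtain ⟨i', hi', hd'⟩ := (Prime.dvd_finsetProd_iff (C.prime i).prime _).1
        ((Nat.mul_dvd_mul_iff_left (C.prime i).pos).1 h')
      exact (Finset.mem_erase.1 hi').1
        (C.injective ((Nat.prime_dvd_prime_iff_eq (C.prime i) (C.prime i')).1 hd').symm)
    have hdvd : ∀ i, C.qv i ∣ L := fun i =>
      (Finset.dvd_prod_of_mem _ (Finset.mem_univ i)).mul_left _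
    have haPr : (⟨a, hap⟩ : Nat.Primes) ∉ Pr := fun h =>
      hPr _ ((dvd_level_of_mem_all haall).mul_left p) (S.ne_p a haall) h
    rw [hLeq] at heig
    rcases qvEigen_descent (q := ⟨a, hap⟩) haL haPr hdvd heig with h | ⟨x, u, hx, hxeig, hxlam, hxq⟩
    · exact ih hUT h
    -- exit
    refine ⟨⟨a, haT⟩, trace_sq_of_exit_noT hattach h35 hp2 hres Y j jK hjK lam hgood hap haT haall
      hsq haL ?_ hdvd x u hx hxeig hxlam hxq⟩
    rw [← hLeq]
    refine mul_dvd_mul_right ?_ _
    show (∏ q ∈ S.Smin ∪ insert a U, q) * S.pFactor ∣ S.level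
    rw [hlevel]
    refine mul_dvd_mul_right ?_ _
    exact Finset.prod_dvd_prod_of_subset _ _ _
      (Finset.union_subset_union le_rfl (Finset.insert_subset haT hUT))

end FermatLib.MLT.Odd

end
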