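import Fermat.Agent.MLT.Odd.SupplyPointInputs
import Fermat.Agent.MLT.Odd.AvoidBridge
import Fermat.Agent.Galois.AttachmentProved

/-!
# Residual modularity of level prime to `p` gives flatness at `p`

The point of an eigenform of level `M`, `p ∤ M`, congruent to `W` has a representation which is
flat at `p` and lifts the residual representation of `W`.
-/

set_option autoImplicit false
set_option linter.style.haveILetI false

noncomputable section

open IsLocalRing

namespace FermatLib.Extra

open FermatLib.Galois FermatLib.MLT FermatLib.MLT.Odd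

local notation "Qbar" => AlgebraicClosure ℚ
local notation "Γℚ" => (AlgebraicClosure ℚ ≃ₐ[ℚ] AlgebraicClosure ℚ)
local notation "ZbarC" => integralClosure ℤ ℂ

/-- A point with values in a complete DVR congruent to a residually modular curve. -/
theorem exists_congruentPoint {W : WeierstrassCurve ℤ} {p M : ℕ} [Fact p.Prime] [NeZero M]
    (hres : W.IsResiduallyModularOfLevel p M) :
    ∃ (O : Type) (_ : CommRing O) (_ : IsDomain O) (_ : IsDiscreteValuationRing O)
      (_ : IsAdicComplete (maximalIdeal O) O) (_ : Finite (ResidueField O)) (_ : CharZero O),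
      (p : O) ∈ maximalIdeal O ∧
      ∃ c : ↥(CuspForm.heckeAlgebra M 2 (∅ : Set ℕ)) →+* O,
        ∀ (l : ℕ) (hl : l.Prime) (hlM : ¬ l ∣ M) (hlE : l ∉ (∅ : Set ℕ)), W.IsGoodPrimeFor l →
          l ≠ p → residue O (c (CuspForm.heckeAlgebra.T hl hlM hlE)) =
            ((W.apOfModel l : ℤ) : ResidueField O) := by
  obtain ⟨f, 𝔪, hf, hmax, hpm, hwit⟩ := hres
  have hpp : p.Prime := Fact.out
  haveI := hmax
  letI : Field (ZbarC ⧸ 𝔪) := Ideal.Quotient.field 𝔪
  haveI : CharP (ZbarC ⧸ 𝔪) p := by
    refine (CharP.charP_iff_prime_eq_zero hpp).mpr ?_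
    rw [← map_natCast (Ideal.Quotient.mk 𝔪), Ideal.Quotient.eq_zero_iff_mem]
    exact hpm
  haveI := Modular.heckeAlgebra_moduleFinite M 2 (∅ : Set ℕ)
  obtain ⟨ξ, -, hξT, -⟩ := exists_eigenformCharacter (S := (∅ : Set ℕ)) hf
  obtain ⟨O, _, _, _, _, _, _, hpO, c, j, hj⟩ :=
    exists_padicPoint ξ hpp (Ideal.Quotient.mk 𝔪)
  refine ⟨O, inferInstance, inferInstance, inferInstance, inferInstance, inferInstance,
    inferInstance, hpO, c, fun l hl hlM hlE hg hlp => j.injective ?_⟩
  obtain ⟨a, ha, hmem⟩ := hwit l hl hg hlM hlp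
  rw [hj, map_intCast, show ξ (CuspForm.heckeAlgebra.T hl hlM hlE) = a from
    Subtype.ext ((hξT l hl hlM hlE).trans ha.symm), Ideal.Quotient.eq.2 hmem, map_intCast]

/-- **A curve residually modular of a level prime to `p` is residually flat at `p`.** -/
theorem curveResidualRep_isFlatAt_of_level {W : WeierstrassCurve ℤ} (hΔ : W.Δ ≠ 0) {p : ℕ}
    [Fact p.Prime] (hp2 : p ≠ 2) (hirr : W.ModRepIsIrreducible p) {M : ℕ} (hM : M ≠ 0)
    (hpM : ¬ p ∣ M) (hres : W.IsResiduallyModularOfLevel p M) :
    (GaloisRepAdic.ofResidualGaloisRep (curveResidualRep W hΔ p)).IsFlatAt p := by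
  classical
  have hp : p.Prime := Fact.out
  haveI : NeZero M := ⟨hM⟩
  obtain ⟨O, _, _, _, _, _, _, hpO, c, hc⟩ := exists_congruentPoint hres
  haveI : CharP (ResidueField O) p := (CharP.charP_iff_prime_eq_zero hp).mpr (by
    rw [← map_natCast (residue O), residue_eq_zero_iff]; exact hpO)
  haveI : IsLocalHom (algebraMap O O) := _root_.isLocalHom_id O
  let ι : ZMod p →+* ResidueField O := ZMod.castHom (dvd_refl p) _
  set ρbar := curveResidualRepExt W hΔ p ι
  let E : Finset ℕ := insert p M.primeFactors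
  have hNE : ∀ q : ℕ, q.Prime → q ∣ M → q ∈ E := fun q hq hqM =>
    Finset.mem_insert_of_mem (Nat.mem_primeFactors.2 ⟨hq, hqM, hM⟩)
  let χ₀ : ↥(CuspForm.heckeAlgebra M 2 (E : Set ℕ)) →+* O :=
    c.comp (Subalgebra.inclusion (CuspForm.heckeAlgebra_mono (Set.empty_subset _))).toRingHom
  obtain ⟨L⟩ := nonempty_pointLift_outside (ρbar := ρbar) padicAttachment hp2 hpO
    (curveResidualRepExt_isAbsolutelyIrreducible W hΔ p ι hp2 hirr)
    (curveResidualRepExt_detIsCyclotomic W hΔ p ι) (Finset.mem_insert_self p _) hNE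
    (pointInputs_holds M hp2) χ₀ W.Δ.natAbs.primeFactors
    fun l hl hlM hlE hlΔ A hA σ hσ => by
      have hg : W.IsGoodPrimeFor l := fun h => hlΔ
        (Nat.mem_primeFactors.2 ⟨hl, Int.natCast_dvd.1 h, Int.natAbs_ne_zero.2 hΔ⟩)
      have hlp : l ≠ p := fun h => hlE (by subst h; exact Finset.mem_insert_self _ _)
      rw [trace_curveResidualRepExt_frobenius hΔ ι hl hg hlp hA hσ, map_intCast,
        ← hc l hl hlM (Set.notMem_empty l) hg hlp]
      rfl
  have h := L.isFlatAt_residual (L.flat hpM)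
  letI : Algebra (ZMod p) (ResidueField O) := ι.toAlgebra
  haveI : Module.Finite (ZMod p) (ResidueField O) := Module.Finite.of_finite
  haveI : Finite (ResidueField (ZMod p)) :=
    Finite.of_surjective (residue (ZMod p)) residue_surjective
  exact HeckeRep.isFlatAt_of_baseChange_finite_injective (A := ZMod p) (B := ResidueField O)
    ι.injective (inferInstance : IsLocalHom ι) h

/-- **The same with coefficients in any finite field.** -/
theorem isFlatAt_curveResidualRepExt_of_level {W : WeierstrassCurve ℤ} (hΔ : W.Δ ≠ 0) {p : ℕ}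
    [Fact p.Prime] (hp2 : p ≠ 2) (hirr : W.ModRepIsIrreducible p) {M : ℕ} (hM : Squarefree M)
    (hpM : ¬ p ∣ M) (hres : W.IsResiduallyModularOfLevel p M) {k : Type} [Field k] [Finite k]
    (ι : ZMod p →+* k) :
    (GaloisRepAdic.ofResidualGaloisRep (curveResidualRepExt W hΔ p ι)).IsFlatAt p :=
  FlatModel.isFlatAt_baseChange (B := k) ι ⟨fun _ h =>
    isUnit_iff_ne_zero.2 fun h0 => h.ne_zero (by rw [h0, map_zero])⟩
    (curveResidualRep_isFlatAt_of_level hΔ hp2 hirr hM.ne_zero hpM hres)

end FermatLib.Extra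

end
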