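import Fermat.Agent.Extra.S38Seed
import Fermat.Agent.Extra.S38Flat
import Fermat.Agent.Extra.S38Avoid
import Fermat.Agent.Route.Modularity

/-!
# Removing an unramified prime from a squarefree level

The residual representation of a semistable curve is modular at a level supported on its ramified
primes and on `p`, the latter only if the given level contains `p`.
-/

set_option autoImplicit false
set_option linter.style.haveILetI false

noncomputable section

open IsLocalRing CuspForm WeierstrassCurve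

namespace FermatLib.Extra.S38

open FermatLib.MLT FermatLib.MLT.Odd

variable {p : ℕ} [Fact p.Prime] {W : WeierstrassCurve ℤ}

/-- From a witness of squarefree level `M₀` to a level with ramified primes and `p` only. -/
theorem exists_ramified_level (hp2 : p ≠ 2) (hΔ : W.Δ ≠ 0) (hW : W.IsSemistableModel)
    (hirr : W.ModRepIsIrreducible p) {M₀ : ℕ} (hsq : Squarefree M₀)
    (hpD : p ∣ M₀ → (p : ℤ) ∣ W.Δ) (hwit : ResModularUnitAtP W p M₀) :
    ∃ N : ℕ, Squarefree N ∧ W.IsResiduallyModularOfLevel p N ∧ ∀ q : ℕ, q.Prime → q ∣ N →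
      (q = p ∧ p ∣ M₀) ∨ (q ≠ p ∧ ¬ (curveResidualRep W hΔ p).IsUnramifiedAt q) := by
  classical
  have : NeZero M₀ := ⟨hsq.ne_zero⟩
  have hattach := Galois.padicAttachment
  obtain ⟨D⟩ := nonempty_curveSeed hattach hΔ hwit
  obtain ⟨φ, -⟩ := Galois.Attach.exists_padicIntHom D.O D.mem_maximalIdeal
  have hodd := D.oddResidual hp2 hW hirr
  let S := levelPrimes W hΔ φ D.mem_maximalIdeal D.ι hp2 hW M₀ hpD
    fun h => isFlatAt_curveResidualRepExt_of_level hΔ hp2 hirr hsq h hwit.residual D.ι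
  have hseed : HasSeed S := hasSeed_levelPrimes W hΔ φ D.mem_maximalIdeal D.ι hp2 hW M₀ hpD _
    hattach MazurP.mazurNonScalar hodd hirr hsq D.θ D.traces D.unit_p
  obtain ⟨N, hN0, hN, hprimes, θ, hθ⟩ :=
    exists_character_without_T hp2 D.mem_maximalIdeal D.exists_root hodd S rfl hseed
  refine ⟨N, hN, isResiduallyModularOfLevel_of_hasResidualTraces hattach hΔ D.ι
    ((S.all.finite_toSet).insert p) θ hθ, fun q hq hqN => ?_⟩
  rcases hprimes q hq hqN with h | ⟨h, hc⟩
  · refine Or.inr ⟨S.ne_p q (Finset.mem_union_left _ (Finset.mem_union_left _ h)), ?_⟩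
    rw [← curveResidualRepExt_isUnramifiedAt_iff W hΔ p D.ι]
    exact S.ramified_min q h
  · refine Or.inl ⟨h, by_contra fun hd => hc ?_⟩
    exact (levelPCase_eq_flat_iff W hΔ D.ι M₀).mpr hd

/-- **Removing an unramified prime from a squarefree level.** -/
theorem isResiduallyModularOfLevel_div (hp2 : p ≠ 2) (hΔ : W.Δ ≠ 0) (hW : W.IsSemistableModel)
    (hirr : W.ModRepIsIrreducible p) {M q : ℕ} (hq : q.Prime) (hqp : q ≠ p) (hqM : q ∣ M)
    (hM : Squarefree M) (hunr : (curveResidualRep W hΔ p).IsUnramifiedAt q)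
    (hres : W.IsResiduallyModularOfLevel p M) : W.IsResiduallyModularOfLevel p (M / q) := by
  classical
  have hp : p.Prime := Fact.out
  have hattach := Galois.padicAttachment
  have hM0 : M ≠ 0 := hM.ne_zero
  obtain ⟨M₀, hsq₀, hpD, hpM₀, hwit⟩ : ∃ M₀, Squarefree M₀ ∧ (p ∣ M₀ → (p : ℤ) ∣ W.Δ) ∧
      (p ∣ M₀ → p ∣ M) ∧ ResModularUnitAtP W p M₀ := by
    by_cases hpM : p ∣ M
    · obtain ⟨N, hN, hsqN, hbad, hmod⟩ := Route.exactConductor_of_semistable hΔ hW
      refine ⟨N, hsqN, fun h => (hbad p hp).1 h, fun _ => hpM,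
        resModularUnitAtP_of_congruent hattach hp hp2 hΔ hW hsqN hbad hmod ?_⟩
      exact fun ℓ _ _ _ _ => by simp
    · exact ⟨M, hM, fun h => absurd h hpM, id, resModularUnitAtP_of_not_dvd hres hpM⟩
  obtain ⟨N, hN, hmodN, hprimes⟩ := exists_ramified_level hp2 hΔ hW hirr hsq₀ hpD hwit
  have hqM' : q * (M / q) = M := Nat.mul_div_cancel' hqM
  have hne : M / q ≠ 0 := fun h => hM0 (by rw [← hqM', h, mul_zero])
  refine Modular.isResiduallyModularOfLevel_of_dvd hne ?_ hmodN
  have hsub : ∀ r ∈ N.primeFactors, r ∣ M / q := fun r hr => by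
    obtain ⟨hrP, hrN, -⟩ := Nat.mem_primeFactors.mp hr
    have hrM : r ∣ M ∧ r ≠ q := by
      rcases hprimes r hrP hrN with ⟨rfl, h⟩ | ⟨hrp, hram⟩
      · exact ⟨hpM₀ h, fun h => hqp h.symm⟩
      · exact ⟨dvd_level_of_not_isUnramifiedAt hattach hΔ hp2 hirr hM0 hres hrP hrp hram,
          fun h => hram (h ▸ hunr)⟩
    rw [← hqM'] at hrM
    exact (hrP.dvd_mul.mp hrM.1).resolve_left fun h =>
      hrM.2 ((Nat.prime_dvd_prime_iff_eq hrP hq).mp h)
  rw [← Nat.prod_primeFactors_of_squarefree hN]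
  exact Finset.prod_primes_dvd _ (fun r hr => (Nat.prime_of_mem_primeFactors hr).prime) hsub

end FermatLib.Extra.S38

end
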