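import Fermat.Agent.MLT.Odd.LiftUnit

/-!
# The seed for removing unramified primes from a squarefree level

From a witness of level `M₀` which is a unit root at `p`, Mazur's principle leaves the residually
ramified primes, `p`, and the primes `r ≡ 1 (mod p)` with scalar Frobenius: a seed for a set of
primes with nothing to be raised (`F = ∅`).
-/

set_option autoImplicit false
set_option linter.unusedSectionVars false

noncomputable section

open IsLocalRing CuspForm WeierstrassCurve
open scoped Classical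

namespace FermatLib.Extra.S38

open FermatLib.MLT FermatLib.MLT.Odd

variable {p : ℕ} [Fact p.Prime] (W : WeierstrassCurve ℤ) (hΔ : W.Δ ≠ 0)
  {O : Type} [CommRing O] [IsLocalRing O] [Finite (ResidueField O)]
  (φ : ℤ_[p] →+* O) (hp : (p : O) ∈ maximalIdeal O) (ι : ZMod p →+* ResidueField O)

/-- The primes of `M₀` that only avoidance removes. -/
def scalarPrimes (M₀ : ℕ) : Finset ℕ :=
  (M₀.primeFactors.erase p).filter fun q =>
    (curveResidualRepExt W hΔ p ι).IsUnramifiedAt q ∧ q ≡ 1 [MOD p] ∧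
      IsScalarAt (curveResidualRepExt W hΔ p ι) q

/-- The case at `p` of a level. -/
def levelPCase (M₀ : ℕ) : PCase :=
  if p ∣ M₀ then
    (if (GaloisRepAdic.ofResidualGaloisRep (curveResidualRepExt W hΔ p ι)).IsFlatAt p
      then PCase.mixed else PCase.strictOnly)
  else PCase.flat

theorem levelPCase_eq_flat_iff (M₀ : ℕ) : levelPCase W hΔ ι M₀ = PCase.flat ↔ ¬ p ∣ M₀ := by
  rw [levelPCase]
  split_ifs with h1 h2 <;> simp [h1]

variable (hp2 : p ≠ 2) (hW : W.IsSemistableModel) (M₀ : ℕ)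
  (hpD : p ∣ M₀ → (p : ℤ) ∣ W.Δ)
  (hflat : ¬ p ∣ M₀ →
    (GaloisRepAdic.ofResidualGaloisRep (curveResidualRepExt W hΔ p ι)).IsFlatAt p)

/-- The sets of primes of the problem: nothing is to be raised. -/
def levelPrimes : OddPrimes p (curveResidualRepExt W hΔ p ι) where
  Smin := curveMinSet W hΔ ι
  T := scalarPrimes W hΔ ι M₀
  F := ∅
  ε := fun _ => 1
  pCase := levelPCase W hΔ ι M₀
  prime_of_mem := fun q hq => by
    simp only [Finset.mem_union, curveMinSet, scalarPrimes, Finset.mem_filter, Finset.mem_erase,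
      Nat.mem_primeFactors, Finset.notMem_empty, or_false] at hq
    tauto
  ne_p := fun q hq => by
    simp only [Finset.mem_union, curveMinSet, scalarPrimes, Finset.mem_filter, Finset.mem_erase,
      Finset.notMem_empty, or_false] at hq
    tauto
  disjoint_min_T := Finset.disjoint_left.mpr fun q h1 h2 =>
    (Finset.mem_filter.mp h1).2 (Finset.mem_filter.mp h2).2.1
  disjoint_min_F := disjoint_bot_right
  disjoint_T_F := disjoint_bot_right
  ramified_min := fun q hq => (Finset.mem_filter.mp hq).2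
  unipotent_min := fun q hq => by
    obtain ⟨h, -⟩ := Finset.mem_filter.mp hq
    obtain ⟨hqp, hq'⟩ := Finset.mem_erase.mp h
    have hl : IsLocalHom (residue O) := inferInstance
    exact FermatLib.Galois.DeformLocal.isUnipotentOnInertiaAt_of_isEquiv
      (pointRep_baseChange_residue_isEquiv W hΔ φ hp ι hl)
      (Tate.isUnipotentOnInertiaAt_baseChangeAlong hl
        (pointRep_isUnipotentOnInertiaAt W hΔ φ hp hW ((mem_primeFactors_Δ W hΔ).mp hq').1 hqp))
  unramified_T := fun q hq => (Finset.mem_filter.mp hq).2.1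
  one_mod_T := fun q hq => (Finset.mem_filter.mp hq).2.2.1
  scalar_T := fun q hq => (Finset.mem_filter.mp hq).2.2.2
  unramified_F := fun q hq => absurd hq (Finset.notMem_empty q)
  not_scalar_F := fun q hq => absurd hq (Finset.notMem_empty q)
  sign_F := fun q hq => absurd hq (Finset.notMem_empty q)
  trace_F := fun q hq => absurd hq (Finset.notMem_empty q)
  unramified_out := fun q hq hqp hout => by
    by_cases hbad : (q : ℤ) ∣ W.Δ
    · by_contra hr
      refine hout (Finset.mem_union_left _ (Finset.mem_union_left _ ?_))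
      exact Finset.mem_filter.mpr
        ⟨Finset.mem_erase.mpr ⟨hqp, (mem_primeFactors_Δ W hΔ).mpr ⟨hq, hbad⟩⟩, hr⟩
    · exact curveResidualRepExt_isUnramifiedAt_of_good W hΔ ι hq hqp hbad
  flat_p := fun h => by
    by_cases hd : p ∣ M₀
    · by_contra hf
      exact h (by rw [levelPCase, if_pos hd, if_neg hf])
    · exact hflat hd
  not_flat_p := fun h hf => by
    by_cases hd : p ∣ M₀
    · rw [levelPCase, if_pos hd, if_pos hf] at h; exact PCase.noConfusion h
    · rw [levelPCase, if_neg hd] at h; exact PCase.noConfusion h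
  strict_p := fun h => by
    have hd : p ∣ M₀ := by
      by_contra hd
      exact h ((levelPCase_eq_flat_iff W hΔ ι M₀).mpr hd)
    have hl : IsLocalHom (residue O) := inferInstance
    obtain ⟨e⟩ := pointRep_baseChange_residue_isEquiv W hΔ φ hp ι hl
    exact isStrictOrdinaryAt_of_equiv e
      (isStrictOrdinaryAt_baseChangeAlong _ _
        (pointRep_isStrictOrdinaryAt W hΔ φ hp hp2 hW (hpD hd)))

/-- **The seed.** -/
theorem hasSeed_levelPrimes (hattach : Galois.PadicAttachment) (hMazur : MazurNonScalar)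
    (hres : OddResidual p (curveResidualRepExt W hΔ p ι)) (hirrW : W.ModRepIsIrreducible p)
    [NeZero M₀] (hsq : Squarefree M₀)
    (θ₁ : ↥(heckeAlgebra M₀ 2 (∅ : Set ℕ)) →+* ResidueField O)
    (hθ₁ : HasResidualTraces p (curveResidualRepExt W hΔ p ι) θ₁)
    (hU₁ : ∀ (hp' : p.Prime) (h : p ∣ M₀) (hE : p ∉ (∅ : Set ℕ)),
      θ₁ (heckeAlgebra.U hp' h hE) ^ 2 = 1) :
    HasSeed (levelPrimes W hΔ φ hp ι hp2 hW M₀ hpD hflat) := by
  classical
  haveI : CharP (ResidueField O) p := charP_of_injective_ringHom ι.injective p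
  set S := levelPrimes W hΔ φ hp ι hp2 hW M₀ hpD hflat with hS
  have hpc : S.pCase = PCase.flat ↔ ¬ p ∣ M₀ := levelPCase_eq_flat_iff W hΔ ι M₀
  have hmix : S.pCase = PCase.mixed → p ∣ M₀ := fun h => by
    by_contra hd
    rw [hpc.mpr hd] at h
    exact PCase.noConfusion h
  let R : Finset ℕ := M₀.primeFactors.filter fun q => q ≠ p ∧ q ∉ S.Smin ∪ S.T
  obtain ⟨N, hN0, E, θ₂, hN, hpN, hR, hEfin, hpE, hθ₂, hU₂⟩ :=
    exists_mazur_chain hMazur hp2 (curveResidualRepExt W hΔ p ι) hres.absIrred hres.det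
      (exists_det_neg_one_trace_ne_zero W hΔ ι hW hirrW) (fun a => a ^ 2 = 1) R M₀ ∅ hsq
      Set.finite_empty (Set.notMem_empty p) (fun q hq => by
        obtain ⟨hqf, hqp, hqn⟩ := Finset.mem_filter.mp hq
        obtain ⟨hqP, hqM, -⟩ := Nat.mem_primeFactors.mp hqf
        have hu : (curveResidualRepExt W hΔ p ι).IsUnramifiedAt q := by
          by_cases hbad : (q : ℤ) ∣ W.Δ
          · by_contra hr
            exact hqn (Finset.mem_union_left _ (Finset.mem_filter.mpr
              ⟨Finset.mem_erase.mpr ⟨hqp, (mem_primeFactors_Δ W hΔ).mpr ⟨hqP, hbad⟩⟩, hr⟩))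
          · exact curveResidualRepExt_isUnramifiedAt_of_good W hΔ ι hqP hqp hbad
        exact ⟨hqP, hqM, hqp, hu, fun h => hqn (Finset.mem_union_right _ (Finset.mem_filter.mpr
          ⟨Finset.mem_erase.mpr ⟨hqp, hqf⟩, hu, h⟩))⟩)
      θ₁ hθ₁ hU₁
  have hmem : ∀ q : ℕ, q.Prime → q ∣ N → q ≠ p → q ∈ S.Smin ∪ S.T := fun q hq hqN hqp => by
    by_contra hn
    exact hR q (Finset.mem_filter.mpr
      ⟨Nat.mem_primeFactors.mpr ⟨hq, hqN.trans hN, NeZero.ne M₀⟩, hqp, hn⟩) hqN
  have hall : (S.all : Set ℕ) ⊆ S.seedExcluded := by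
    rw [OddPrimes.seedExcluded]
    split_ifs
    exacts [subset_rfl, Set.subset_insert _ _]
  have hmixed : p ∉ S.seedExcluded → S.pCase = PCase.mixed := fun h => by
    by_contra hm
    rw [OddPrimes.seedExcluded, if_neg hm] at h
    exact h (Set.mem_insert p _)
  obtain ⟨θ₃, hθ₃, hU₃⟩ := exists_character_of_hasResidualTraces hattach hΔ ι hEfin hpE θ₂ hθ₂
    (E' := S.seedExcluded)
    (fun q hq hqN hqE => by_contra fun hqp => hqE (hall
      (Finset.mem_union_left _ (hmem q hq hqN hqp))))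
    (fun h => hpN (hmix (hmixed h)))
    (fun hp h _ => hU₂ hp h hpE)
  refine ⟨N, hN0, hsq.squarefree_of_dvd hN, fun q hq hqN => ?_, θ₃, hθ₃, fun hp hpE' =>
    ⟨fun h => hU₃ hp h hpE', fun h => absurd (hpN (hmix (hmixed hpE'))) h⟩⟩
  by_cases hqp : q = p
  · subst hqp
    exact Or.inr ⟨rfl, fun h => hpc.mp h (hqN.trans hN)⟩
  · exact Or.inl (hmem q hq hqN hqp)

end FermatLib.Extra.S38

end
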