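import Mathlib.Data.Nat.Factorization.Basic
import Mathlib.Data.ZMod.Basic
import Mathlib.Tactic.LinearCombination
import Mathlib.Tactic.Ring
import Mathlib.Tactic.IntervalCases
import Mathlib.Tactic.Linarith
import Fermat.Prelude.Def_FormalHecke_Eigensystem

/-!
# The formal eigensystem with prescribed values at the primes
-/

set_option autoImplicit false

namespace FermatLib.Extra.S46

variable (e c : ℕ → ℤ)

/-- The value at `p ^ k`. -/
def primePowValue (p : ℕ) : ℕ → ℤ
  | 0 => 1
  | 1 => c p
  | k + 2 => c p * primePowValue p (k + 1) - e p * primePowValue p k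

/-- The multiplicative system with value `c p` at `p` and the recursion given by `e`. -/
def systemOfPrimes (n : ℕ) : ℤ :=
  if n = 0 then 0 else n.factorization.prod (primePowValue e c)

theorem systemOfPrimes_zero : systemOfPrimes e c 0 = 0 := if_pos rfl

theorem systemOfPrimes_one : systemOfPrimes e c 1 = 1 := by
  simp [systemOfPrimes]

theorem systemOfPrimes_pow_mul {p m : ℕ} (hp : p.Prime) (hpm : ¬ p ∣ m) (k : ℕ) :
    systemOfPrimes e c (p ^ k * m) = primePowValue e c p k * systemOfPrimes e c m := by
  classical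
  have hm : m ≠ 0 := fun h => hpm (h ▸ dvd_zero p)
  have hco : (p ^ k).Coprime m := ((hp.coprime_iff_not_dvd).2 hpm).pow_left k
  rw [systemOfPrimes, systemOfPrimes, if_neg (mul_ne_zero (pow_ne_zero k hp.ne_zero) hm),
    if_neg hm, Nat.factorization_mul_of_coprime hco,
    Finsupp.prod_add_index_of_disjoint
      (by rw [Nat.support_factorization, Nat.support_factorization]; exact hco.disjoint_primeFactors),
    hp.factorization_pow]
  rw [Finsupp.prod_single_index]
  rfl

theorem systemOfPrimes_prime {p : ℕ} (hp : p.Prime) : systemOfPrimes e c p = c p := by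
  have h := systemOfPrimes_pow_mul e c hp (fun h => hp.ne_one (Nat.dvd_one.1 h)) 1
  rw [pow_one, mul_one, systemOfPrimes_one, mul_one] at h
  exact h

theorem isEigensystem_systemOfPrimes : FormalHecke.IsEigensystem e (systemOfPrimes e c) := by
  refine ⟨systemOfPrimes_one e c, fun p hp n => ?_⟩
  rw [systemOfPrimes_prime e c hp]
  rcases eq_or_ne n 0 with rfl | hn
  · simp [systemOfPrimes_zero]
  obtain ⟨r, m, hpm, rfl⟩ := Nat.exists_eq_pow_mul_and_not_dvd hn p hp.ne_one
  rw [show p * (p ^ r * m) = p ^ (r + 1) * m by ring, systemOfPrimes_pow_mul e c hp hpm,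
    systemOfPrimes_pow_mul e c hp hpm]
  cases r with
  | zero => rw [pow_zero, one_mul, if_neg hpm]; simp [primePowValue]
  | succ r =>
    rw [if_pos (dvd_mul_of_dvd_left (dvd_pow_self p r.succ_ne_zero) m),
      show p ^ (r + 1) * m / p = p ^ r * m by
        rw [pow_succ', mul_assoc, Nat.mul_div_cancel_left _ hp.pos],
      systemOfPrimes_pow_mul e c hp hpm, primePowValue]
    ring

/-- Two eigensystems modulo `3` with congruent values at the primes and congruent recursions are
congruent. -/
theorem intCast_eq_of_congr_primes {e e' a a' : ℕ → ℤ} (ha : FormalHecke.IsEigensystem e a)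
    (ha' : FormalHecke.IsEigensystem e' a')
    (he : ∀ p : ℕ, p.Prime → (e p : ZMod 3) = (e' p : ZMod 3))
    (hp : ∀ p : ℕ, p.Prime → (a p : ZMod 3) = (a' p : ZMod 3))
    (h0 : (a 0 : ZMod 3) = (a' 0 : ZMod 3)) (n : ℕ) : (a n : ZMod 3) = (a' n : ZMod 3) := by
  induction n using Nat.strong_induction_on with
  | _ n ih =>
    rcases Nat.lt_or_ge n 2 with hn | hn
    · interval_cases n
      · exact h0
      · rw [ha.1, ha'.1]
    obtain ⟨p, hp', m, rfl⟩ := Nat.exists_prime_and_dvd (show n ≠ 1 by omega)
    have hm : m < p * m := by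
      have := hp'.two_le
      have : 0 < m := Nat.pos_of_ne_zero (by rintro rfl; omega)
      nlinarith
    have h1 := congrArg (Int.cast : ℤ → ZMod 3) (ha.2 p hp' m)
    have h2 := congrArg (Int.cast : ℤ → ZMod 3) (ha'.2 p hp' m)
    push_cast at h1 h2
    rw [hp p hp', ih m hm, he p hp'] at h1
    by_cases hpm : p ∣ m
    · simp only [if_pos hpm] at h1 h2
      rw [ih (m / p) ((Nat.div_le_self m p).trans_lt hm)] at h1
      linear_combination h1 - h2
    · simp only [if_neg hpm] at h1 h2
      push_cast at h1 h2
      linear_combination h1 - h2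

end FermatLib.Extra.S46
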