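import Fermat.Agent.Extra.S46Eigensystem
import Fermat.Agent.Modular.Newforms.OldRoot
import Fermat.Agent.Basic.LiftModThree
import Fermat.Agent.Galois.EigenformCharacter
import Fermat.Agent.Modular.IntStruct

/-!
# An integral eigenform is realised by a formal eigensystem of character `χ₋₃`

As `χ₋₃(ℓ) ≡ ℓ` and `E₁(χ₋₃) ≡ 1` modulo `3`, a normalised eigenform of weight two with integer
coefficients realises the formal eigensystem with the same values at the primes.
-/

set_option autoImplicit false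

noncomputable section

open CongruenceSubgroup ModularFormClass EisensteinWeightOne

namespace FermatLib.Extra.S46

variable {M : ℕ} {g : CuspForm (Gamma0 M) 2}

/-- The eigensystem relation for integer coefficients of an eigenform. -/
theorem isEigensystem_intCoeff (hg : g.IsNormalizedEigenform) {b : ℕ → ℤ}
    (hb : ∀ n, (b n : ℂ) = qCoeff ⇑g n) :
    FormalHecke.IsEigensystem (fun ℓ => if ℓ ∣ M then 0 else (ℓ : ℤ)) b := by
  refine ⟨Int.cast_injective (α := ℂ) (by rw [hb, hg.qCoeff_one, Int.cast_one]), fun p hp n => ?_⟩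
  apply Int.cast_injective (α := ℂ)
  have h := Galois.qCoeff_eigenform_mul_prime hg hp n
  rw [Nat.mul_comm p n]
  push_cast [apply_ite (Int.cast : ℤ → ℂ)]
  simp only [hb]
  exact h

/-- Integer values at the primes propagate to all coefficients. -/
theorem exists_intCoeff (hg : g.IsNormalizedEigenform)
    (h : ∀ p : ℕ, p.Prime → ∃ m : ℤ, qCoeff ⇑g p = (m : ℂ)) :
    ∃ b : ℕ → ℤ, ∀ n, (b n : ℂ) = qCoeff ⇑g n := by
  suffices ∀ n, ∃ m : ℤ, qCoeff ⇑g n = (m : ℂ) by
    choose b hb using this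
    exact ⟨b, fun n => (hb n).symm⟩
  intro n
  induction n using Nat.strong_induction_on with
  | _ n ih =>
    rcases Nat.lt_or_ge n 2 with hn | hn
    · interval_cases n
      · exact ⟨0, by rw [Basic.qCoeff_cusp_zero_index, Int.cast_zero]⟩
      · exact ⟨1, by rw [hg.qCoeff_one, Int.cast_one]⟩
    obtain ⟨p, hp, m, rfl⟩ := Nat.exists_prime_and_dvd (show n ≠ 1 by omega)
    have hm : m < p * m := by
      have := hp.two_le
      have : 0 < m := Nat.pos_of_ne_zero (by rintro rfl; omega)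
      nlinarith
    obtain ⟨u, hu⟩ := h p hp
    obtain ⟨v, hv⟩ := ih m hm
    obtain ⟨w, hw⟩ := ih (m / p) ((Nat.div_le_self m p).trans_lt hm)
    refine ⟨u * v - (if p ∣ M then 0 else (p : ℤ)) * (if p ∣ m then w else 0), ?_⟩
    have h1 := Galois.qCoeff_eigenform_mul_prime hg hp m
    rw [hu, hv, hw] at h1
    rw [Nat.mul_comm p m]
    push_cast [apply_ite (Int.cast : ℤ → ℂ)]
    linear_combination h1

/-- The realisation. -/
theorem exists_realized_eigensystem [NeZero M] (hg : g.IsNormalizedEigenform)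
    (h : ∀ p : ℕ, p.Prime → ∃ m : ℤ, qCoeff ⇑g p = (m : ℂ)) :
    ∃ a : ℕ → ℤ,
      FormalHecke.IsEigensystem (fun ℓ => if ℓ ∣ M then 0 else ((chiNegThree ℓ : ℤ) : ℤ)) a ∧
      CuspForm.IsLatticeRealized M a ∧
      ∀ p : ℕ, p.Prime → (a p : ℂ) = qCoeff ⇑g p := by
  obtain ⟨b, hb⟩ := exists_intCoeff hg h
  set e : ℕ → ℤ := fun ℓ => if ℓ ∣ M then 0 else ((chiNegThree ℓ : ℤ) : ℤ) with he
  have ha := isEigensystem_systemOfPrimes e b
  have hb0 : b 0 = 0 := Int.cast_injective (α := ℂ) (by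
    rw [hb, Basic.qCoeff_cusp_zero_index, Int.cast_zero])
  refine ⟨systemOfPrimes e b, ha, ⟨g, fun n => hb n ▸ intCast_mem ⊥ _, b, hb, fun n => ?_⟩,
    fun p hp => by rw [systemOfPrimes_prime e b hp, hb]⟩
  refine (ZMod.intCast_eq_intCast_iff_dvd_sub _ _ 3).1 ?_
  rw [Basic.bridgeProduct_coeff_mod_three]
  refine intCast_eq_of_congr_primes ha (isEigensystem_intCoeff hg hb) (fun p _ => ?_)
    (fun p hp => by rw [systemOfPrimes_prime e b hp]) (by rw [systemOfPrimes_zero, hb0]) n
  by_cases hpM : p ∣ M <;> simp [he, hpM, Basic.chiNegThree_mod_three]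

end FermatLib.Extra.S46

end
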